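/-
S16, work package L-lat (helper542): an explicit even positive definite quaternary lattice of
determinant `p ^ 2` and level `p` for every odd prime `p`.

For integers `m r t` put `q = 4 m - 1` and `p = q t - r ^ 2`.  Then
`A = [[2,1,0,0],[1,2m,0,r],[0,0,2mp,p],[0,r,p,2t]]` is symmetric with even diagonal, `det A = p ^ 2`,
`A * B = p` for an explicit symmetric integral `B` with even diagonal, and `A` is positive definite as
soon as `0 < m` and `0 < p`.  Every odd prime is of the form `(4 m - 1) t - r ^ 2` with `0 < m`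
(`p = 3 mod 4`: `q = p`; `p = 1 mod 4`: Dirichlet + quadratic reciprocity).
-/
import Mathlib

set_option autoImplicit false

namespace Fermat.Agent.S16.H542

open Matrix

/-- The level attached to the parameters `m r t`. -/
def latP (m r t : ℤ) : ℤ := (4 * m - 1) * t - r ^ 2

/-- The Gram matrix of the quaternary lattice. -/
def gramA (m r t : ℤ) : Matrix (Fin 4) (Fin 4) ℤ :=
  !![2, 1, 0, 0;
     1, 2 * m, 0, r;
     0, 0, latP m r t * (2 * m), latP m r t;
     0, r, latP m r t, 2 * t]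

/-- `p` times the inverse of the Gram matrix. -/
def gramB (m r t : ℤ) : Matrix (Fin 4) (Fin 4) ℤ :=
  !![2 * (m * t), latP m r t - 4 * m * t, -r, 2 * (m * r);
     latP m r t - 4 * m * t, 2 * (4 * m * t - latP m r t), 2 * r, -(4 * m * r);
     -r, 2 * r, 2, -(4 * m - 1);
     2 * (m * r), -(4 * m * r), -(4 * m - 1), 2 * (m * (4 * m - 1))]

theorem gramA_isSymm (m r t : ℤ) : (gramA m r t).IsSymm := by
  ext i j
  fin_cases i <;> fin_cases j <;> simp [gramA]

theorem gramB_isSymm (m r t : ℤ) : (gramB m r t).IsSymm := by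
  ext i j
  fin_cases i <;> fin_cases j <;> simp [gramB]

theorem gramA_even_diag (m r t : ℤ) (i : Fin 4) : Even (gramA m r t i i) := by
  fin_cases i
  · exact ⟨1, by simp [gramA]⟩
  · exact ⟨m, by simp [gramA]; ring⟩
  · exact ⟨latP m r t * m, by simp [gramA]; ring⟩
  · exact ⟨t, by simp [gramA]; ring⟩

theorem gramB_even_diag (m r t : ℤ) (i : Fin 4) : Even (gramB m r t i i) := by
  fin_cases i
  · exact ⟨m * t, by simp [gramB]; ring⟩
  · exact ⟨4 * m * t - latP m r t, by simp [gramB]; ring⟩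
  · exact ⟨1, by simp [gramB]⟩
  · exact ⟨m * (4 * m - 1), by simp [gramB]; ring⟩

theorem gramA_mul_gramB (m r t : ℤ) :
    gramA m r t * gramB m r t = latP m r t • (1 : Matrix (Fin 4) (Fin 4) ℤ) := by
  ext i j
  fin_cases i <;> fin_cases j <;>
    simp [gramA, gramB, Matrix.mul_apply, Fin.sum_univ_four, latP] <;> ring

theorem gramB_mul_gramA (m r t : ℤ) :
    gramB m r t * gramA m r t = latP m r t • (1 : Matrix (Fin 4) (Fin 4) ℤ) := by
  ext i j
  fin_cases i <;> fin_cases j <;>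
    simp [gramA, gramB, Matrix.mul_apply, Fin.sum_univ_four, latP] <;> ring

theorem det_fin_four_of (a b c d e f g h i j k l m n o p : ℤ) :
    (!![a, b, c, d; e, f, g, h; i, j, k, l; m, n, o, p] : Matrix (Fin 4) (Fin 4) ℤ).det =
      a * (f * (k * p - l * o) - g * (j * p - l * n) + h * (j * o - k * n))
      - b * (e * (k * p - l * o) - g * (i * p - l * m) + h * (i * o - k * m))
      + c * (e * (j * p - l * n) - f * (i * p - l * m) + h * (i * n - j * m))
      - d * (e * (j * o - k * n) - f * (i * o - k * m) + g * (i * n - j * m)) := by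
  rw [Matrix.det_succ_row_zero]
  simp [Fin.sum_univ_succ, Matrix.det_fin_three, Fin.succAbove, Matrix.submatrix]
  ring

theorem gramA_det (m r t : ℤ) : (gramA m r t).det = latP m r t ^ 2 := by
  rw [gramA, det_fin_four_of]
  simp only [latP]
  ring

/-- The quadratic form `xᵀ A x` written out. -/
theorem gramA_quad {R : Type*} [CommRing R] (m r t : ℤ) (x : Fin 4 → R) :
    x ⬝ᵥ ((gramA m r t).map (Int.cast : ℤ → R) *ᵥ x) =
      2 * x 0 ^ 2 + 2 * x 0 * x 1 + 2 * (m : R) * x 1 ^ 2 + 2 * (r : R) * x 1 * x 3 +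
        2 * (m : R) * (latP m r t : R) * x 2 ^ 2 + 2 * (latP m r t : R) * x 2 * x 3 +
        2 * (t : R) * x 3 ^ 2 := by
  simp [gramA, dotProduct, Matrix.mulVec, Fin.sum_univ_four]
  ring

/-- The sum-of-squares identity behind positive definiteness. -/
theorem gramA_quad_sos {R : Type*} [CommRing R] (m r t : ℤ) (x : Fin 4 → R) :
    2 * ((4 * m - 1 : ℤ) : R) * (m : R) * (x ⬝ᵥ ((gramA m r t).map (Int.cast : ℤ → R) *ᵥ x)) =
      ((4 * m - 1 : ℤ) : R) * (m : R) * (2 * x 0 + x 1) ^ 2 +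
        (m : R) * (((4 * m - 1 : ℤ) : R) * x 1 + 2 * (r : R) * x 3) ^ 2 +
        (latP m r t : R) * ((4 * m - 1 : ℤ) : R) * (2 * (m : R) * x 2 + x 3) ^ 2 +
        (latP m r t : R) * x 3 ^ 2 := by
  rw [gramA_quad]
  simp only [latP]
  push_cast
  ring

theorem gramA_quad_pos (m r t : ℤ) (hm : 0 < m) (hp : 0 < latP m r t) (x : Fin 4 → ℝ)
    (hx : x ≠ 0) : 0 < x ⬝ᵥ ((gramA m r t).map (Int.cast : ℤ → ℝ) *ᵥ x) := by
  have hq : (0 : ℝ) < ((4 * m - 1 : ℤ) : ℝ) := by
    have : (0 : ℤ) < 4 * m - 1 := by linarith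
    exact_mod_cast this
  have hm' : (0 : ℝ) < (m : ℝ) := by exact_mod_cast hm
  have hp' : (0 : ℝ) < (latP m r t : ℝ) := by exact_mod_cast hp
  have key := gramA_quad_sos (R := ℝ) m r t x
  have hpos : 0 < ((4 * m - 1 : ℤ) : ℝ) * (m : ℝ) * (2 * x 0 + x 1) ^ 2 +
        (m : ℝ) * (((4 * m - 1 : ℤ) : ℝ) * x 1 + 2 * (r : ℝ) * x 3) ^ 2 +
        (latP m r t : ℝ) * ((4 * m - 1 : ℤ) : ℝ) * (2 * (m : ℝ) * x 2 + x 3) ^ 2 +
        (latP m r t : ℝ) * x 3 ^ 2 := by
    by_contra hcon
    have h1 : 0 ≤ ((4 * m - 1 : ℤ) : ℝ) * (m : ℝ) * (2 * x 0 + x 1) ^ 2 := by positivity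
    have h2 : 0 ≤ (m : ℝ) * (((4 * m - 1 : ℤ) : ℝ) * x 1 + 2 * (r : ℝ) * x 3) ^ 2 := by
      positivity
    have h3 : 0 ≤ (latP m r t : ℝ) * ((4 * m - 1 : ℤ) : ℝ) * (2 * (m : ℝ) * x 2 + x 3) ^ 2 := by
      positivity
    have h4 : 0 ≤ (latP m r t : ℝ) * x 3 ^ 2 := by positivity
    have e4 : (latP m r t : ℝ) * x 3 ^ 2 = 0 := by linarith
    have e3 : (latP m r t : ℝ) * ((4 * m - 1 : ℤ) : ℝ) * (2 * (m : ℝ) * x 2 + x 3) ^ 2 = 0 := by
      linarith
    have e2 : (m : ℝ) * (((4 * m - 1 : ℤ) : ℝ) * x 1 + 2 * (r : ℝ) * x 3) ^ 2 = 0 := by linarith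
    have e1 : ((4 * m - 1 : ℤ) : ℝ) * (m : ℝ) * (2 * x 0 + x 1) ^ 2 = 0 := by linarith
    have x3 : x 3 = 0 := by
      rcases mul_eq_zero.mp e4 with h | h
      · exact absurd h hp'.ne'
      · exact pow_eq_zero_iff (two_ne_zero) |>.mp h
    have x2 : x 2 = 0 := by
      rcases mul_eq_zero.mp e3 with h | h
      · exact absurd h (mul_pos hp' hq).ne'
      · have := pow_eq_zero_iff (two_ne_zero) |>.mp h
        rw [x3, add_zero] at this
        rcases mul_eq_zero.mp this with h' | h'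
        · exact absurd h' (by positivity)
        · exact h'
    have x1 : x 1 = 0 := by
      rcases mul_eq_zero.mp e2 with h | h
      · exact absurd h hm'.ne'
      · have := pow_eq_zero_iff (two_ne_zero) |>.mp h
        rw [x3, mul_zero, add_zero] at this
        rcases mul_eq_zero.mp this with h' | h'
        · exact absurd h' hq.ne'
        · exact h'
    have x0 : x 0 = 0 := by
      rcases mul_eq_zero.mp e1 with h | h
      · exact absurd h (mul_pos hq hm').ne'
      · have := pow_eq_zero_iff (two_ne_zero) |>.mp h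
        rw [x1, add_zero] at this
        rcases mul_eq_zero.mp this with h' | h'
        · exact absurd h' two_ne_zero
        · exact h'
    apply hx
    ext i
    fin_cases i
    · exact x0
    · exact x1
    · exact x2
    · exact x3
  rw [← key] at hpos
  have h2qm : (0 : ℝ) < 2 * ((4 * m - 1 : ℤ) : ℝ) * (m : ℝ) := by positivity
  exact (mul_pos_iff_of_pos_left h2qm).mp hpos

theorem gramA_posDef (m r t : ℤ) (hm : 0 < m) (hp : 0 < latP m r t) :
    ((gramA m r t).map (Int.cast : ℤ → ℝ)).PosDef := by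
  rw [Matrix.posDef_iff_dotProduct_mulVec]
  refine ⟨?_, fun x hx => ?_⟩
  · rw [Matrix.IsHermitian, Matrix.conjTranspose_eq_transpose_of_trivial, ← Matrix.transpose_map,
      (gramA_isSymm m r t).eq]
  · simpa using gramA_quad_pos m r t hm hp x hx

end Fermat.Agent.S16.H542
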