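/-
S16, work package L-lat (helper542): every odd prime `p` is of the form `(4 m - 1) t - r ^ 2`
with `0 < m`, hence carries the explicit even quaternary lattice of `Lattice.lean`
(determinant `p ^ 2`, level `p`, positive definite).
-/
import Fermat.Agent.S16.H542.Lattice

set_option autoImplicit false

namespace Fermat.Agent.S16.H542

open Matrix

/-- Dirichlet + quadratic reciprocity: for a prime `p = 1 mod 4` there is a prime `q = 3 mod 4`
such that `-p` is a square modulo `q`. -/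
theorem exists_prime_three_mod_four_neg_isSquare (p : ℕ) (hp : p.Prime) (hp1 : p % 4 = 1) :
    ∃ q : ℕ, q.Prime ∧ q % 4 = 3 ∧ ∃ r : ℤ, (q : ℤ) ∣ r ^ 2 + p := by
  have : Fact p.Prime := ⟨hp⟩
  have hp2 : p ≠ 2 := by rintro rfl; omega
  -- a non-square modulo `p`
  obtain ⟨n, hn⟩ : ∃ n : ZMod p, ¬ IsSquare n :=
    FiniteField.exists_nonsquare (by rwa [ZMod.ringChar_zmod_n])
  have hn0 : n ≠ 0 := by
    rintro rfl
    exact hn ⟨0, by simp⟩
  -- Chinese remainder theorem
  have hcop : Nat.Coprime 4 p := by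
    have : Nat.Coprime 2 p := (Nat.coprime_primes Nat.prime_two hp).mpr (Ne.symm hp2)
    exact Nat.Coprime.pow_left 2 this
  obtain ⟨k, hk4, hkp⟩ := Nat.chineseRemainder hcop 3 n.val
  have hkn : (k : ZMod p) = n := by
    have := (ZMod.natCast_eq_natCast_iff k n.val p).mpr hkp
    rw [this, ZMod.natCast_zmod_val]
  have hk4' : k % 4 = 3 := hk4
  have hkcop : IsCoprime (k : ℤ) ((4 * p : ℕ) : ℤ) := by
    rw [Nat.isCoprime_iff_coprime]
    apply Nat.Coprime.mul_right
    · have h2 : Nat.Coprime k 2 := by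
        rw [Nat.coprime_comm, Nat.Prime.coprime_iff_not_dvd Nat.prime_two]
        omega
      exact Nat.Coprime.pow_right 2 h2
    · rw [Nat.coprime_comm, Nat.Prime.coprime_iff_not_dvd hp]
      intro hdvd
      apply hn0
      rw [← hkn]
      exact (ZMod.natCast_eq_zero_iff k p).mpr hdvd
  obtain ⟨q, -, hq, hqk⟩ := Nat.forall_exists_prime_gt_and_zmodEq 2 (q := 4 * p)
    (Nat.mul_ne_zero (by norm_num) hp.ne_zero) hkcop
  have : Fact q.Prime := ⟨hq⟩
  have hqk' : q ≡ k [MOD 4 * p] := by exact_mod_cast hqk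
  have hq4 : q % 4 = 3 := by
    have : q ≡ k [MOD 4] := hqk'.of_mul_right p
    rw [← hk4']
    exact this
  have hqn : (q : ZMod p) = n := by
    have : q ≡ k [MOD p] := hqk'.of_mul_left 4
    rw [← hkn]
    exact (ZMod.natCast_eq_natCast_iff q k p).mpr this
  have hq2 : q ≠ 2 := by rintro rfl; omega
  have hqp : q ≠ p := by rintro rfl; omega
  -- quadratic reciprocity
  have hnsq : ¬ IsSquare ((p : ℕ) : ZMod q) := by
    rw [← ZMod.exists_sq_eq_prime_iff_of_mod_four_eq_one hp1 hq2, hqn]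
    exact hn
  have hleg1 : legendreSym q (p : ℤ) = -1 := by
    rw [legendreSym.eq_neg_one_iff]
    simpa using hnsq
  have hleg2 : legendreSym q (-1) = -1 := by
    rw [legendreSym.at_neg_one hq2, ZMod.χ₄_nat_three_mod_four hq4]
  have hleg : legendreSym q (-1 * (p : ℤ)) = 1 := by
    rw [legendreSym.mul, hleg1, hleg2]
    norm_num
  have hne : ((-1 * (p : ℤ) : ℤ) : ZMod q) ≠ 0 := by
    intro h
    rw [ZMod.intCast_zmod_eq_zero_iff_dvd] at h
    have h' : (q : ℤ) ∣ (p : ℤ) := by simpa using h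
    have h'' : q ∣ p := by exact_mod_cast h'
    exact hqp ((Nat.prime_dvd_prime_iff_eq hq hp).mp h'')
  obtain ⟨r, hr⟩ := (legendreSym.eq_one_iff q hne).mp hleg
  refine ⟨q, hq, hq4, (r.val : ℤ), ?_⟩
  rw [← ZMod.intCast_zmod_eq_zero_iff_dvd]
  push_cast at hr ⊢
  rw [ZMod.natCast_zmod_val, pow_two, ← hr]
  ring

/-- Every odd prime is of the form `(4 m - 1) t - r ^ 2` with `0 < m`. -/
theorem exists_params (p : ℕ) (hp : p.Prime) (hp2 : p ≠ 2) :
    ∃ m r t : ℤ, 0 < m ∧ latP m r t = p := by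
  have hodd : p % 2 = 1 := hp.eq_two_or_odd.resolve_left hp2
  have h4 : p % 4 = 1 ∨ p % 4 = 3 := by omega
  rcases h4 with h1 | h3
  · obtain ⟨q, hq, hq4, r, t, ht⟩ := exists_prime_three_mod_four_neg_isSquare p hp h1
    refine ⟨((q + 1) / 4 : ℕ), r, t, ?_, ?_⟩
    · have : 0 < (q + 1) / 4 := by omega
      exact_mod_cast this
    · have hq' : (4 * (((q + 1) / 4 : ℕ) : ℤ) - 1) = (q : ℤ) := by
        have : 4 * ((q + 1) / 4) = q + 1 := by omega
        have : (4 * (((q + 1) / 4 : ℕ) : ℤ)) = (q : ℤ) + 1 := by exact_mod_cast this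
        linarith
      rw [latP, hq', ← ht]
      ring
  · refine ⟨((p + 1) / 4 : ℕ), 0, 1, ?_, ?_⟩
    · have : 0 < (p + 1) / 4 := by omega
      exact_mod_cast this
    · have hq' : (4 * (((p + 1) / 4 : ℕ) : ℤ) - 1) = (p : ℤ) := by
        have : 4 * ((p + 1) / 4) = p + 1 := by omega
        have : (4 * (((p + 1) / 4 : ℕ) : ℤ)) = (p : ℤ) + 1 := by exact_mod_cast this
        linarith
      rw [latP, hq']
      ring

/-- **L-lat.** For every odd prime `p` there is an even, positive definite, integral quaternary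
Gram matrix `A` of determinant `p ^ 2` such that `p A⁻¹ = B` is integral with even diagonal. -/
theorem exists_gram (p : ℕ) (hp : p.Prime) (hp2 : p ≠ 2) :
    ∃ A B : Matrix (Fin 4) (Fin 4) ℤ,
      A.IsSymm ∧ B.IsSymm ∧ (∀ i, Even (A i i)) ∧ (∀ i, Even (B i i)) ∧
      A * B = (p : ℤ) • (1 : Matrix (Fin 4) (Fin 4) ℤ) ∧
      B * A = (p : ℤ) • (1 : Matrix (Fin 4) (Fin 4) ℤ) ∧
      A.det = (p : ℤ) ^ 2 ∧ (A.map (Int.cast : ℤ → ℝ)).PosDef := by
  obtain ⟨m, r, t, hm, hpe⟩ := exists_params p hp hp2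
  have hpos : 0 < latP m r t := by
    rw [hpe]
    exact_mod_cast hp.pos
  refine ⟨gramA m r t, gramB m r t, gramA_isSymm m r t, gramB_isSymm m r t,
    gramA_even_diag m r t, gramB_even_diag m r t, ?_, ?_, ?_, gramA_posDef m r t hm hpos⟩
  · rw [gramA_mul_gramB, hpe]
  · rw [gramB_mul_gramA, hpe]
  · rw [gramA_det, hpe]

end Fermat.Agent.S16.H542
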